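import Mathlib
import Fermat.Prelude.Def_EllipticCurve_FrobeniusTrace

set_option autoImplicit false

open scoped Pointwise

noncomputable section

namespace Fermat.Agent.Lib.Frob

local notation "Qb" => AlgebraicClosure ℚ
local notation "GQ" => (AlgebraicClosure ℚ ≃ₐ[ℚ] AlgebraicClosure ℚ)
local notation "OQ" => integralClosure ℤ (AlgebraicClosure ℚ)

local instance isAlgebraicQbar_h1 : Algebra.IsAlgebraic ℚ (AlgebraicClosure ℚ) :=
  AlgebraicClosure.isAlgebraic ℚ
local instance isAlgClosureQbar_h1 : IsAlgClosure ℚ (AlgebraicClosure ℚ) :=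
  ⟨inferInstance, inferInstance⟩

theorem mem_valuationSubring_of_isIntegral (A : ValuationSubring Qb) {x : Qb}
    (hx : IsIntegral ℤ x) : x ∈ A := by
  have h1 : IsIntegral A x := hx.tower_top
  obtain ⟨y, hy⟩ := (IsIntegrallyClosed.isIntegral_iff (R := A) (K := Qb)).1 h1
  rw [← hy]
  exact y.2

/-- the inclusion of the integral closure of `ℤ` into a valuation subring `A` -/
def toA (A : ValuationSubring Qb) : OQ →+* A where
  toFun := fun b => ⟨(b : Qb), mem_valuationSubring_of_isIntegral A b.2⟩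
  map_one' := rfl
  map_mul' := fun _ _ => rfl
  map_zero' := rfl
  map_add' := fun _ _ => rfl

@[simp] theorem coe_toA (A : ValuationSubring Qb) (b : OQ) : ((toA A b : A) : Qb) = (b : Qb) := rfl

/-- the ring hom from `OQ` to the residue field of `A` -/
def toResidue (A : ValuationSubring Qb) : OQ →+* IsLocalRing.ResidueField A :=
  (IsLocalRing.residue A).comp (toA A)

def idealQ (A : ValuationSubring Qb) : Ideal OQ := RingHom.ker (toResidue A)

instance (A : ValuationSubring Qb) : (idealQ A).IsPrime := RingHom.ker_isPrime _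

theorem mem_idealQ_iff (A : ValuationSubring Qb) (b : OQ) :
    b ∈ idealQ A ↔ (b : Qb) ∈ A.nonunits := by
  rw [idealQ, RingHom.mem_ker, toResidue, RingHom.comp_apply, IsLocalRing.residue_eq_zero_iff]
  exact (ValuationSubring.coe_mem_nonunits_iff (A := A) (a := toA A b)).symm

section frob

variable (A : ValuationSubring Qb) (ℓ : ℕ) (hℓ : ℓ.Prime) (hA : (ℓ : Qb) ∈ A.nonunits)

include hA in
theorem natCast_mem_idealQ : (ℓ : OQ) ∈ idealQ A :=
  (mem_idealQ_iff A _).2 (by simpa using hA)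

include hℓ hA in
theorem charP_quot : CharP (OQ ⧸ idealQ A) ℓ := by
  rw [CharP.charP_iff_prime_eq_zero hℓ]
  have := natCast_mem_idealQ A ℓ hA
  rw [← Ideal.Quotient.eq_zero_iff_mem] at this
  simpa using this

include hℓ hA in
theorem under_isMaximal : ((idealQ A).under ℤ).IsMaximal := by
  have hprime : ((idealQ A).under ℤ).IsPrime := inferInstance
  apply IsPrime.to_maximal_ideal
  intro h
  have h1 : (ℓ : ℤ) ∈ (idealQ A).under ℤ := by
    rw [Ideal.under_def, Ideal.mem_comap]
    simpa using natCast_mem_idealQ A ℓ hA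
  rw [h] at h1
  simp at h1
  exact hℓ.ne_zero h1

include hℓ hA in
theorem idealQ_isMaximal : (idealQ A).IsMaximal :=
  Ideal.isMaximal_of_isIntegral_of_isMaximal_comap (R := ℤ) (idealQ A) (under_isMaximal A ℓ hℓ hA)


include hℓ hA in
theorem exists_frobAlgEquiv :
    ∃ φ : (OQ ⧸ idealQ A) ≃ₐ[ℤ ⧸ (idealQ A).under ℤ] (OQ ⧸ idealQ A), ∀ x, φ x = x ^ ℓ := by
  have := charP_quot A ℓ hℓ hA
  have := idealQ_isMaximal A ℓ hℓ hA
  have := under_isMaximal A ℓ hℓ hA
  have : Fact ℓ.Prime := ⟨hℓ⟩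
  let := Ideal.Quotient.field (idealQ A)
  let := Ideal.Quotient.field ((idealQ A).under ℤ)
  let f : (OQ ⧸ idealQ A) →ₐ[ℤ ⧸ (idealQ A).under ℤ] (OQ ⧸ idealQ A) :=
    { frobenius (OQ ⧸ idealQ A) ℓ with
      commutes' := by
        intro r
        obtain ⟨n, rfl⟩ := Ideal.Quotient.mk_surjective r
        simp }
  have hbij : Function.Bijective f := Algebra.IsAlgebraic.algHom_bijective f
  exact ⟨AlgEquiv.ofBijective f hbij, fun x => rfl⟩

theorem isIntegral_of_forall_mem_valuationSubring {y : Qb}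
    (hy : ∀ V : ValuationSubring Qb, y ∈ V) : IsIntegral ℤ y := by
  have h1 : y ∈ (⨅ V : {V : ValuationSubring Qb // (∅ : Set Qb) ⊆ V.toSubring}, V.1.toSubring) := by
    rw [Subring.mem_iInf]
    intro V
    exact hy V.1
  rw [iInf_valuationSubring_superset] at h1
  have h2 : IsIntegral (Subring.closure (∅ : Set Qb)) y := h1
  have h3 : Algebra.IsIntegral ℤ (Subring.closure (∅ : Set Qb)) := by
    refine ⟨fun a => ?_⟩
    rcases a with ⟨a, ha⟩
    have ha' : a ∈ (⊥ : Subring Qb) := by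
      rw [← Subring.closure_empty]; exact ha
    obtain ⟨n, hn⟩ := Subring.mem_bot.1 ha'
    have : (⟨a, ha⟩ : Subring.closure (∅ : Set Qb)) =
        algebraMap ℤ (Subring.closure (∅ : Set Qb)) n := by
      apply Subtype.ext
      show a = _
      rw [← hn]
      simp
    rw [this]
    exact isIntegral_algebraMap
  exact isIntegral_trans y h2

include hℓ hA in
theorem charP_residueField : CharP (IsLocalRing.ResidueField A) ℓ := by
  rw [CharP.charP_iff_prime_eq_zero hℓ]
  have h1 : ((ℓ : A) : Qb) ∈ A.nonunits := by simpa using hA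
  rw [ValuationSubring.coe_mem_nonunits_iff] at h1
  have h2 := (IsLocalRing.residue_eq_zero_iff (ℓ : A)).2 h1
  simpa using h2

include hℓ hA in
/-- Key claim: every element of `A` is a fraction `z / y` with `y, z` integral over `ℤ`
and `y` a unit of `A`. -/
theorem exists_integral_fraction (x : Qb) (hx : x ∈ A) :
    ∃ y z : OQ, (y : Qb) ∉ A.nonunits ∧ x * (y : Qb) = (z : Qb) := by
  classical
  by_cases hx0 : x = 0
  · refine ⟨1, 0, ?_, by simp [hx0]⟩
    intro h
    rw [ValuationSubring.mem_nonunits_iff] at h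
    simp at h
  -- a primitive integer polynomial killing `x`
  have halg : IsAlgebraic ℤ x :=
    (IsFractionRing.isAlgebraic_iff ℤ ℚ Qb).2 (Algebra.IsAlgebraic.isAlgebraic x)
  obtain ⟨p0, hp0, hp0x⟩ := halg
  set p := p0.primPart with hp
  have hpx : Polynomial.aeval x p = 0 := Polynomial.aeval_primPart_eq_zero hp0 hp0x
  have hprim : p.IsPrimitive := p0.isPrimitive_primPart
  have hex : ∃ i, ¬ (ℓ : ℤ) ∣ p.coeff i := by
    by_contra h
    push Not at h
    have h1 : Polynomial.C (ℓ : ℤ) ∣ p := (Polynomial.C_dvd_iff_dvd_coeff _ _).2 h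
    have hu := hprim _ h1
    rw [Int.isUnit_iff] at hu
    have := hℓ.one_lt
    omega
  let S := p.support.filter (fun i => ¬ (ℓ : ℤ) ∣ p.coeff i)
  have hS : S.Nonempty := by
    obtain ⟨i, hi⟩ := hex
    refine ⟨i, Finset.mem_filter.2 ⟨?_, hi⟩⟩
    rw [Polynomial.mem_support_iff]
    intro h
    rw [h] at hi
    exact hi (dvd_zero _)
  set r := S.max' hS with hr_def
  have hrS : r ∈ S := Finset.max'_mem S hS
  have hr : ¬ (ℓ : ℤ) ∣ p.coeff r := (Finset.mem_filter.1 hrS).2
  have hgt : ∀ i, r < i → (ℓ : ℤ) ∣ p.coeff i := by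
    intro i hi
    by_contra h
    have hiS : i ∈ S := by
      refine Finset.mem_filter.2 ⟨?_, h⟩
      rw [Polynomial.mem_support_iff]
      intro h0
      rw [h0] at h
      exact h (dvd_zero _)
    exact absurd (Finset.le_max' S i hiS) (not_le.2 hi)
  set N := p.natDegree + 1 with hN
  have hrN : r ∈ Finset.range N := by
    rw [Finset.mem_range, hN, Nat.lt_succ_iff]
    apply Polynomial.le_natDegree_of_ne_zero
    intro h0
    rw [h0] at hr
    exact hr (dvd_zero _)
  set yL : Qb := ∑ i ∈ (Finset.range N).filter (fun i => r ≤ i), (p.coeff i : Qb) * x ^ (i - r)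
    with hyL
  set zL : Qb :=
    - ∑ i ∈ (Finset.range N).filter (fun i => ¬ r ≤ i), (p.coeff i : Qb) * (x⁻¹) ^ (r - 1 - i)
    with hzL
  -- the basic identity
  have hxy : x * yL = zL := by
    have hxr : x ^ r ≠ 0 := pow_ne_zero _ hx0
    apply mul_left_cancel₀ hxr
    have e1 : x ^ r * (x * yL) =
        x * ∑ i ∈ (Finset.range N).filter (fun i => r ≤ i), (p.coeff i : Qb) * x ^ i := by
      rw [hyL, mul_left_comm, Finset.mul_sum]
      congr 1
      apply Finset.sum_congr rfl
      intro i hi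
      have hri : r ≤ i := (Finset.mem_filter.1 hi).2
      rw [mul_left_comm, ← pow_add, Nat.add_sub_cancel' hri]
    have e2 : x ^ r * zL =
        - (x * ∑ i ∈ (Finset.range N).filter (fun i => ¬ r ≤ i), (p.coeff i : Qb) * x ^ i) := by
      rw [hzL, mul_neg, Finset.mul_sum, Finset.mul_sum]
      congr 1
      apply Finset.sum_congr rfl
      intro i hi
      have hri : i < r := not_le.1 (Finset.mem_filter.1 hi).2
      obtain ⟨m, hm⟩ : ∃ m, r - 1 - i = m := ⟨_, rfl⟩
      have hsplit : r = (i + 1) + m := by omega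
      have : x ^ r * (x⁻¹) ^ (r - 1 - i) = x ^ (i + 1) := by
        rw [hm, hsplit, pow_add, mul_assoc, ← mul_pow, mul_inv_cancel₀ hx0, one_pow, mul_one]
      rw [mul_left_comm, this, pow_succ]
      ring
    have e3 : ∑ i ∈ (Finset.range N).filter (fun i => r ≤ i), (p.coeff i : Qb) * x ^ i
        + ∑ i ∈ (Finset.range N).filter (fun i => ¬ r ≤ i), (p.coeff i : Qb) * x ^ i = 0 := by
      rw [Finset.sum_filter_add_sum_filter_not]
      rw [Polynomial.aeval_eq_sum_range] at hpx
      rw [← hpx]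
      apply Finset.sum_congr rfl
      intro i _
      rw [zsmul_eq_mul]
    rw [e1, e2, eq_neg_iff_add_eq_zero, ← mul_add, e3, mul_zero]
  -- membership in all valuation subrings
  have hmem : ∀ V : ValuationSubring Qb, yL ∈ V ∧ zL ∈ V := by
    intro V
    rcases V.mem_or_inv_mem x with h | h
    · have hy : yL ∈ V := by
        rw [hyL]
        refine sum_mem fun i _ => mul_mem ?_ (pow_mem h _)
        exact intCast_mem V _
      exact ⟨hy, hxy ▸ mul_mem h hy⟩
    · have hz : zL ∈ V := by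
        rw [hzL]
        refine neg_mem (sum_mem fun i _ => mul_mem ?_ (pow_mem h _))
        exact intCast_mem V _
      refine ⟨?_, hz⟩
      have : yL = x⁻¹ * zL := by
        rw [← hxy, ← mul_assoc, inv_mul_cancel₀ hx0, one_mul]
      rw [this]
      exact mul_mem h hz
  have hyint : IsIntegral ℤ yL := isIntegral_of_forall_mem_valuationSubring fun V => (hmem V).1
  have hzint : IsIntegral ℤ zL := isIntegral_of_forall_mem_valuationSubring fun V => (hmem V).2
  refine ⟨⟨yL, hyint⟩, ⟨zL, hzint⟩, ?_, hxy⟩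
  -- `yL` is a unit of `A`
  have hchar := charP_residueField A ℓ hℓ hA
  let xA : A := ⟨x, hx⟩
  let yA : A := ∑ i ∈ (Finset.range N).filter (fun i => r ≤ i), (p.coeff i : A) * xA ^ (i - r)
  have hyA : (yA : Qb) = yL := by
    simp only [yA, hyL, xA]
    push_cast
    rfl
  have hres : IsLocalRing.residue A yA = ((p.coeff r : ℤ) : IsLocalRing.ResidueField A) := by
    simp only [yA, map_sum, map_mul, map_pow, map_intCast]
    rw [Finset.sum_eq_single r]
    · simp
    · intro i hi hir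
      have hri : r < i := lt_of_le_of_ne (Finset.mem_filter.1 hi).2 (Ne.symm hir)
      have : ((p.coeff i : ℤ) : IsLocalRing.ResidueField A) = 0 :=
        (CharP.intCast_eq_zero_iff _ ℓ _).2 (hgt i hri)
      rw [this, zero_mul]
    · intro h
      exact absurd (Finset.mem_filter.2 ⟨hrN, le_refl r⟩) h
  have hne : IsLocalRing.residue A yA ≠ 0 := by
    rw [hres]
    intro h
    exact hr ((CharP.intCast_eq_zero_iff _ ℓ _).1 h)
  intro hmemnon
  change yL ∈ A.nonunits at hmemnon
  rw [← hyA, ValuationSubring.coe_mem_nonunits_iff] at hmemnon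
  exact hne ((IsLocalRing.residue_eq_zero_iff yA).2 hmemnon)

end frob

theorem isInvariant_int : Algebra.IsInvariant ℤ OQ GQ := by
  refine ⟨fun b hb => ?_⟩
  have h1 : (b : Qb) ∈ Set.range (algebraMap ℚ Qb) := by
    rw [InfiniteGalois.mem_range_algebraMap_iff_fixed]
    intro f
    have := congrArg (fun z : OQ => (z : Qb)) (hb f)
    simpa using this
  obtain ⟨q, hq⟩ := h1
  have h2 : IsIntegral ℤ q := by
    have : IsIntegral ℤ (algebraMap ℚ Qb q) := by rw [hq]; exact b.2
    exact (isIntegral_algebraMap_iff (algebraMap ℚ Qb).injective).1 this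
  obtain ⟨n, hn⟩ := (IsIntegrallyClosed.isIntegral_iff (R := ℤ) (K := ℚ)).1 h2
  refine ⟨n, Subtype.ext ?_⟩
  rw [← hq, ← hn]
  simp

local instance topB_h1 : TopologicalSpace OQ := ⊥
local instance discB_h1 : DiscreteTopology OQ := ⟨rfl⟩

theorem continuousSMul_B : ContinuousSMul GQ OQ := by
  rw [continuousSMul_iff_stabilizer_isOpen]
  intro b
  have h := stabilizer_isOpen_of_isIntegral (K := ℚ) (L := Qb) (b : Qb)
  convert h using 2
  ext g
  simp only [MulAction.mem_stabilizer_iff]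
  constructor
  · intro hg
    have := congrArg (fun z : OQ => (z : Qb)) hg
    simpa using this
  · intro hg
    exact Subtype.ext hg

section main

variable (A : ValuationSubring Qb) (ℓ : ℕ) (hℓ : ℓ.Prime) (hA : (ℓ : Qb) ∈ A.nonunits)

theorem smul_mem_idealQ_of_mem_stabilizer {τ : GQ}
    (hτ : τ ∈ MulAction.stabilizer GQ (idealQ A)) {b : OQ} (hb : b ∈ idealQ A) :
    τ • b ∈ idealQ A := by
  rw [MulAction.mem_stabilizer_iff] at hτ
  have : τ • b ∈ τ • idealQ A := Ideal.smul_mem_pointwise_smul τ b _ hb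
  rwa [hτ] at this

theorem inv_mem_of_not_mem_nonunits {y : Qb} (_hy : y ∈ A) (hy' : y ∉ A.nonunits) : y⁻¹ ∈ A := by
  rw [ValuationSubring.mem_nonunits_iff_or] at hy'
  push Not at hy'
  exact hy'.2

include hℓ hA in
theorem apply_mem_of_mem_stabilizer {τ : GQ}
    (hτ : τ ∈ MulAction.stabilizer GQ (idealQ A)) {x : Qb} (hx : x ∈ A) : τ x ∈ A := by
  obtain ⟨y, z, hy, hxyz⟩ := exists_integral_fraction A ℓ hℓ hA x hx
  have hτy : ((τ • y : OQ) : Qb) = τ (y : Qb) := rfl
  have hτz : ((τ • z : OQ) : Qb) = τ (z : Qb) := rfl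
  have h1 : τ x * τ (y : Qb) = τ (z : Qb) := by rw [← map_mul, hxyz]
  have hy1 : τ (y : Qb) ∈ A := hτy ▸ mem_valuationSubring_of_isIntegral A (τ • y).2
  have hz1 : τ (z : Qb) ∈ A := hτz ▸ mem_valuationSubring_of_isIntegral A (τ • z).2
  have hy2 : τ (y : Qb) ∉ A.nonunits := by
    intro h
    have h2 : τ • y ∈ idealQ A := (mem_idealQ_iff A _).2 (hτy ▸ h)
    have h3 : τ⁻¹ • (τ • y) ∈ idealQ A :=
      smul_mem_idealQ_of_mem_stabilizer A (inv_mem hτ) h2
    rw [inv_smul_smul] at h3
    exact hy ((mem_idealQ_iff A _).1 h3)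
  have hy3 : (τ (y : Qb))⁻¹ ∈ A := inv_mem_of_not_mem_nonunits A hy1 hy2
  have hy0 : τ (y : Qb) ≠ 0 := by
    intro h
    apply hy2
    rw [h]
    exact A.nonunits.zero_mem
  have : τ x = τ (z : Qb) * (τ (y : Qb))⁻¹ := by
    rw [← h1, mul_assoc, mul_inv_cancel₀ hy0, mul_one]
  rw [this]
  exact mul_mem hz1 hy3

include hℓ hA in
theorem mem_decompositionSubgroup_of_mem_stabilizer {τ : GQ}
    (hτ : τ ∈ MulAction.stabilizer GQ (idealQ A)) : τ ∈ A.decompositionSubgroup ℚ := by
  rw [MulAction.mem_stabilizer_iff]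
  apply SetLike.ext
  intro x
  rw [ValuationSubring.mem_pointwise_smul_iff_inv_smul_mem]
  constructor
  · intro h
    have := apply_mem_of_mem_stabilizer A ℓ hℓ hA hτ h
    rw [AlgEquiv.smul_def] at this
    simpa using this
  · intro h
    have := apply_mem_of_mem_stabilizer A ℓ hℓ hA (inv_mem hτ) h
    rw [AlgEquiv.smul_def]
    exact this

include hℓ hA in
/-- Frobenius elements exist for every valuation subring of `Qb` over a prime `ℓ`. -/
theorem exists_isFrobeniusAt_of_liesOver : ∃ σ : GQ, A.IsFrobeniusAt σ ℓ := by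
  have hinv := isInvariant_int
  have hcont := continuousSMul_B
  obtain ⟨φ, hφ⟩ := exists_frobAlgEquiv A ℓ hℓ hA
  obtain ⟨⟨σ, hσ⟩, hσφ⟩ := Ideal.Quotient.stabilizerHom_surjective_of_profinite (G := GQ)
      ((idealQ A).under ℤ) (idealQ A) φ
  have hfrob : ∀ b : OQ, toResidue A (σ • b) = (toResidue A b) ^ ℓ := by
    intro b
    have h := congrArg (fun ψ => ψ (Ideal.Quotient.mk (idealQ A) b)) hσφ
    simp only [Ideal.Quotient.stabilizerHom_apply] at h
    rw [hφ, ← map_pow, Ideal.Quotient.eq] at h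
    have h' : toResidue A ((⟨σ, hσ⟩ : MulAction.stabilizer GQ (idealQ A)) • b - b ^ ℓ) = 0 := h
    rw [map_sub, sub_eq_zero, map_pow] at h'
    exact h'
  have hdec : σ ∈ A.decompositionSubgroup ℚ :=
    mem_decompositionSubgroup_of_mem_stabilizer A ℓ hℓ hA hσ
  refine ⟨σ, hdec, ?_⟩
  intro xbar
  obtain ⟨xA, rfl⟩ := IsLocalRing.residue_surjective xbar
  obtain ⟨y, z, hy, hxyz⟩ := exists_integral_fraction A ℓ hℓ hA xA xA.2
  set g : A.decompositionSubgroup ℚ := ⟨σ, hdec⟩ with hg
  rw [← IsLocalRing.ResidueField.residue_smul, ← map_pow]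
  have e1 : xA * toA A y = toA A z := Subtype.ext hxyz
  have e2 : g • toA A y = toA A (σ • y) := Subtype.ext rfl
  have e3 : g • toA A z = toA A (σ • z) := Subtype.ext rfl
  have e4 : (g • xA) * toA A (σ • y) = toA A (σ • z) := by
    rw [← e2, ← e3, ← smul_mul', e1]
  have e5 : IsLocalRing.residue A (g • xA) * (toResidue A y) ^ ℓ = (toResidue A z) ^ ℓ := by
    rw [← hfrob, ← hfrob]
    have := congrArg (IsLocalRing.residue A) e4
    rw [map_mul] at this
    exact this
  have e6 : IsLocalRing.residue A xA * toResidue A y = toResidue A z := by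
    have := congrArg (IsLocalRing.residue A) e1
    rw [map_mul] at this
    exact this
  have hy0 : toResidue A y ≠ 0 := by
    intro h
    have : y ∈ idealQ A := h
    exact hy ((mem_idealQ_iff A _).1 this)
  have hy0' : (toResidue A y) ^ ℓ ≠ 0 := pow_ne_zero _ hy0
  apply mul_right_cancel₀ hy0'
  rw [e5, ← e6, mul_pow, map_pow]

end main

/-- There is a valuation subring of `Qb` over every prime `ℓ`. -/
theorem exists_liesOverPrime (ℓ : ℕ) (hℓ : ℓ.Prime) :
    ∃ A : ValuationSubring Qb, A.LiesOverPrime ℓ := by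
  let R : Subring Qb := (Int.castRingHom Qb).range
  let ℓR : R := ⟨(ℓ : Qb), ⟨(ℓ : ℤ), by simp⟩⟩
  have hne : Ideal.span {ℓR} ≠ ⊤ := by
    intro h
    rw [Ideal.span_singleton_eq_top] at h
    obtain ⟨u, hu⟩ := h.exists_right_inv
    obtain ⟨n, hn⟩ := u.2
    have h1 : ((ℓ : Qb)) * (u : Qb) = 1 := congrArg Subtype.val hu
    rw [← hn] at h1
    have h2 : ((ℓ * n : ℤ) : Qb) = ((1 : ℤ) : Qb) := by push_cast; simpa using h1
    have h3 : (ℓ : ℤ) * n = 1 := Int.cast_injective h2
    have h4 : (ℓ : ℤ) ∣ 1 := ⟨n, h3.symm⟩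
    have h5 := Int.le_of_dvd one_pos h4
    have := hℓ.one_lt
    omega
  obtain ⟨V, _, hV⟩ := Ideal.image_subset_nonunits_valuationSubring _ hne
  refine ⟨V, ?_⟩
  apply hV
  exact ⟨ℓR, Ideal.subset_span rfl, rfl⟩

end Fermat.Agent.Lib.Frob

namespace Fermat.Agent.Lib

/-- For every prime `ℓ` there are a valuation subring `A` of `AlgebraicClosure ℚ` over `ℓ` and a
Frobenius element at `A`. -/
theorem exists_isFrobeniusAt (ℓ : ℕ) (hℓ : ℓ.Prime) :
    ∃ (A : ValuationSubring (AlgebraicClosure ℚ))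
      (σ : AlgebraicClosure ℚ ≃ₐ[ℚ] AlgebraicClosure ℚ),
      A.LiesOverPrime ℓ ∧ A.IsFrobeniusAt σ ℓ := by
  obtain ⟨A, hA⟩ := Frob.exists_liesOverPrime ℓ hℓ
  obtain ⟨σ, hσ⟩ := Frob.exists_isFrobeniusAt_of_liesOver A ℓ hℓ hA
  exact ⟨A, σ, hA, hσ⟩

/-- For every valuation subring `A` of `AlgebraicClosure ℚ` over a prime `ℓ` there is a
Frobenius element at `A`. -/
theorem exists_isFrobeniusAt_of_liesOverPrime (ℓ : ℕ) (hℓ : ℓ.Prime)
    (A : ValuationSubring (AlgebraicClosure ℚ)) (hA : A.LiesOverPrime ℓ) :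
    ∃ σ : AlgebraicClosure ℚ ≃ₐ[ℚ] AlgebraicClosure ℚ, A.IsFrobeniusAt σ ℓ :=
  Frob.exists_isFrobeniusAt_of_liesOver A ℓ hℓ hA

end Fermat.Agent.Lib
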