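import Mathlib
import Fermat.Prelude.Def_CuspForm_HeckeAlgebra
import Fermat.Prelude.Def_FormalHecke_Eigensystem
import Fermat.Prelude.Thm_ModularFormClass_qCoeff_heckeT
import Fermat.Prelude.Thm_ModularFormClass_qCoeff_heckeU
import Fermat.Prelude.Thm_CongruenceSubgroup_one_mem_strictPeriods_Gamma0

set_option autoImplicit false

namespace Fermat.Agent.Lib.H3

section Formal

variable {R : Type*} [CommRing R]

/-- The unnormalised Hecke relation: `a` is a simultaneous "eigen-sequence" with eigenvalues `lam`. -/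
def IsEigenSeq (e lam a : ℕ → R) : Prop :=
  ∀ ℓ : ℕ, ℓ.Prime → ∀ n : ℕ,
    a (ℓ * n) + e ℓ * (if ℓ ∣ n then a (n / ℓ) else 0) = lam ℓ * a n

theorem IsEigenSeq.eq_zero_of_one {e lam a : ℕ → R} (h : IsEigenSeq e lam a) (h1 : a 1 = 0) :
    ∀ n : ℕ, 1 ≤ n → a n = 0 := by
  intro n
  induction n using Nat.strong_induction_on with
  | _ n ih =>
    intro hn
    rcases eq_or_lt_of_le hn with rfl | hn1
    · exact h1
    · obtain ⟨p, hp, hpn⟩ := Nat.exists_prime_and_dvd (show n ≠ 1 by omega)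
      obtain ⟨m, rfl⟩ := hpn
      have hm : 1 ≤ m := by
        rcases Nat.eq_zero_or_pos m with rfl | hm
        · omega
        · exact hm
      have hlt : m < p * m := by
        have := hp.two_le
        nlinarith
      have hrel := h p hp m
      have hm0 : a m = 0 := ih m hlt hm
      have hdiv : (if p ∣ m then a (m / p) else 0) = 0 := by
        split_ifs with hd
        · obtain ⟨c, rfl⟩ := hd
          have hc : 1 ≤ c := by
            rcases Nat.eq_zero_or_pos c with rfl | hc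
            · omega
            · exact hc
          rw [Nat.mul_div_cancel_left c hp.pos]
          refine ih c ?_ hc
          have := hp.two_le
          nlinarith
        · rfl
      rw [hm0, hdiv, mul_zero, mul_zero, add_zero] at hrel
      exact hrel

theorem IsEigenSeq.lam_eq {e lam a : ℕ → R} (h : IsEigenSeq e lam a) {ℓ : ℕ} (hℓ : ℓ.Prime) :
    a ℓ = lam ℓ * a 1 := by
  have := h ℓ hℓ 1
  rw [mul_one, if_neg (by simpa using hℓ.one_lt.ne'), mul_zero, add_zero] at this
  exact this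

theorem isEigensystem_mul_of_coprime {e a : ℕ → R} (h : FormalHecke.IsEigensystem e a) :
    ∀ m n : ℕ, m.Coprime n → a (m * n) = a m * a n := by
  obtain ⟨h1, hrel⟩ := h
  intro m
  induction m using Nat.strong_induction_on with
  | _ m ih =>
    intro n hmn
    rcases Nat.eq_zero_or_pos m with rfl | hm
    · have : n = 1 := by simpa using hmn
      subst this
      rw [h1, mul_one, mul_one]
    rcases eq_or_lt_of_le (show 1 ≤ m from hm) with rfl | hm1
    · rw [one_mul, h1, one_mul]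
    obtain ⟨p, hp, hpm⟩ := Nat.exists_prime_and_dvd (show m ≠ 1 by omega)
    obtain ⟨m', rfl⟩ := hpm
    have hm' : 1 ≤ m' := by
      rcases Nat.eq_zero_or_pos m' with rfl | h
      · omega
      · exact h
    have hlt : m' < p * m' := by
      have := hp.two_le
      nlinarith
    have hcop' : m'.Coprime n := Nat.Coprime.coprime_dvd_left (Dvd.intro_left p rfl) hmn
    have hpn : ¬ p ∣ n := by
      intro hpn
      have : p ∣ Nat.gcd (p * m') n := Nat.dvd_gcd (Dvd.intro m' rfl) hpn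
      rw [hmn] at this
      exact hp.one_lt.ne' (Nat.dvd_one.mp this)
    have e1 := hrel p hp (m' * n)
    have e2 := hrel p hp m'
    have hmul : a (m' * n) = a m' * a n := ih m' hlt n hcop'
    by_cases hd : p ∣ m'
    · obtain ⟨c, rfl⟩ := hd
      have hc : 1 ≤ c := by
        rcases Nat.eq_zero_or_pos c with rfl | h
        · omega
        · exact h
      have hclt : c < p * (p * c) := by
        have := hp.two_le
        nlinarith
      have hcopc : c.Coprime n := Nat.Coprime.coprime_dvd_left (Dvd.intro_left p rfl) hcop'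
      have hmulc : a (c * n) = a c * a n := ih c hclt n hcopc
      have hd1 : p ∣ p * c * n := Dvd.dvd.mul_right (Dvd.intro c rfl) n
      rw [if_pos hd1, show p * c * n / p = c * n by
        rw [mul_assoc, Nat.mul_div_cancel_left _ hp.pos]] at e1
      rw [if_pos (Dvd.intro c rfl), Nat.mul_div_cancel_left _ hp.pos] at e2
      rw [show p * (p * c) * n = p * (p * c * n) by ring]
      have : a (p * (p * c * n)) = a p * a (p * c * n) - e p * a (c * n) := by
        rw [← e1]; ring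
      rw [this, hmul, hmulc]
      have : a (p * (p * c)) = a p * a (p * c) - e p * a c := by
        rw [← e2]; ring
      rw [this]; ring
    · have hd1 : ¬ p ∣ m' * n := by
        intro hdd
        rcases (Nat.Prime.dvd_mul hp).mp hdd with h | h
        · exact hd h
        · exact hpn h
      rw [if_neg hd1, mul_zero, add_zero] at e1
      rw [if_neg hd, mul_zero, add_zero] at e2
      rw [show p * m' * n = p * (m' * n) by ring, e1, hmul, e2]; ring

theorem isEigensystem_prime_pow {e a : ℕ → R} (h : FormalHecke.IsEigensystem e a)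
    (ℓ r : ℕ) (hℓ : ℓ.Prime) :
    a (ℓ ^ (r + 2)) = a ℓ * a (ℓ ^ (r + 1)) - e ℓ * a (ℓ ^ r) := by
  have := h.2 ℓ hℓ (ℓ ^ (r + 1))
  rw [if_pos (dvd_pow_self ℓ (Nat.succ_ne_zero r)), show ℓ ^ (r + 1) / ℓ = ℓ ^ r by
    rw [pow_succ, Nat.mul_div_cancel _ hℓ.pos]] at this
  rw [show ℓ ^ (r + 2) = ℓ * ℓ ^ (r + 1) by ring, ← this]; ring

theorem isRecursive_of_isEigensystem {e a : ℕ → R} (h : FormalHecke.IsEigensystem e a) :
    FormalHecke.IsRecursive e a :=
  ⟨h.1, isEigensystem_mul_of_coprime h, fun ℓ r hℓ => isEigensystem_prime_pow h ℓ r hℓ⟩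

end Formal


section Forms

open CuspForm ModularFormClass CongruenceSubgroup UpperHalfPlane

variable {N : ℕ} {k : ℤ}

theorem qCoeff_smul_cuspForm (c : ℂ) (f : CuspForm (Gamma0 N) k) (n : ℕ) :
    qCoeff ⇑(c • f) n = c * qCoeff ⇑f n := by
  have h1 : ⇑(c • f) = c • ⇑f := by
    ext z
    simp
  simp only [qCoeff, h1]
  rw [ModularForm.qExpansion_smul one_pos (one_mem_strictPeriods_Gamma0 N) c f]
  simp

theorem qCoeff_zero_cuspForm (f : CuspForm (Gamma0 N) k) : qCoeff ⇑f 0 = 0 :=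
  CuspFormClass.qExpansion_coeff_zero f one_pos (one_mem_strictPeriods_Gamma0 N)

theorem eq_zero_of_forall_qCoeff_eq_zero (f : CuspForm (Gamma0 N) k)
    (h : ∀ n : ℕ, qCoeff ⇑f n = 0) : f = 0 := by
  have hΓ := one_mem_strictPeriods_Gamma0 N
  have hcusp : Fact (IsCusp OnePoint.infty
      (Subgroup.map (Matrix.SpecialLinearGroup.mapGL ℝ) (Gamma0 N))) :=
    ⟨Subgroup.isCusp_of_mem_strictPeriods one_pos hΓ⟩
  have hq : qExpansion 1 ⇑f = 0 := by
    ext n
    simpa [qCoeff] using h n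
  have := (UpperHalfPlane.qExpansion_eq_zero_iff (h := 1) one_pos
    (SlashInvariantFormClass.periodic_comp_ofComplex f hΓ) (ModularFormClass.holo f)
    (ModularFormClass.bdd_at_infty f)).mp hq
  exact DFunLike.coe_injective (this.trans (FunLike.coe_zero).symm)

theorem qCoeff_heckeTLin {p : ℕ} (hp : p.Prime) (hpN : ¬ p ∣ N) (f : CuspForm (Gamma0 N) k)
    (n : ℕ) :
    qCoeff ⇑(CuspForm.heckeTLin k hp hpN f) n = ModularForm.coeffHeckeT k p (qCoeff ⇑f) n := by
  rw [CuspForm.coe_heckeTLin_apply]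
  exact ModularFormClass.qCoeff_heckeT f (one_mem_strictPeriods_Gamma0 N) hp.ne_zero n

theorem qCoeff_heckeULin [NeZero N] {p : ℕ} (hp : p ≠ 0) (hpN : p ∣ N)
    (f : CuspForm (Gamma0 N) k) (n : ℕ) :
    qCoeff ⇑(CuspForm.heckeULin k hpN f) n = ModularForm.coeffHeckeU p (qCoeff ⇑f) n := by
  rw [CuspForm.coe_heckeULin_apply]
  exact ModularFormClass.qCoeff_heckeU f (one_mem_strictPeriods_Gamma0 N) hp n

/-- The weight-two "Euler factor" character of level `N`. -/
def eulerChar (N : ℕ) (ℓ : ℕ) : ℂ := if ℓ ∣ N then 0 else (ℓ : ℂ)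

theorem isEigenSeq_of_eigenvector [NeZero N]
    (g : CuspForm (Gamma0 N) 2) (lam : ℕ → ℂ)
    (hT : ∀ (ℓ : ℕ) (hℓ : ℓ.Prime) (hℓN : ¬ ℓ ∣ N), CuspForm.heckeTLin 2 hℓ hℓN g = lam ℓ • g)
    (hU : ∀ (q : ℕ) (_ : q.Prime) (hqN : q ∣ N), CuspForm.heckeULin 2 hqN g = lam q • g) :
    IsEigenSeq (eulerChar N) lam (fun n => qCoeff ⇑g n) := by
  intro ℓ hℓ n
  by_cases hℓN : ℓ ∣ N
  · have h1 := qCoeff_heckeULin hℓ.ne_zero hℓN g n
    rw [hU ℓ hℓ hℓN, qCoeff_smul_cuspForm, ModularForm.coeffHeckeU_apply] at h1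
    simp only [eulerChar, if_pos hℓN, zero_mul, add_zero]
    rw [mul_comm ℓ n, h1]
  · have h1 := qCoeff_heckeTLin hℓ hℓN g n
    rw [hT ℓ hℓ hℓN, qCoeff_smul_cuspForm, ModularForm.coeffHeckeT_apply] at h1
    simp only [eulerChar, if_neg hℓN]
    rw [mul_comm ℓ n, h1]
    split_ifs
    · norm_num
    · simp

theorem isNormalizedEigenform_of_isEigensystem
    (f : CuspForm (Gamma0 N) 2)
    (h : FormalHecke.IsEigensystem (eulerChar N) (fun n => qCoeff ⇑f n)) :
    f.IsNormalizedEigenform := by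
  have hrec := isRecursive_of_isEigensystem h
  refine ⟨h.1, hrec.2.1, ?_, ?_⟩
  · intro p r hp hpN
    have := hrec.2.2 p r hp
    simpa [eulerChar, if_neg hpN] using this
  · intro p r hp hpN
    have := hrec.2.2 p r hp
    simpa [eulerChar, if_pos hpN] using this

/-- A nonzero simultaneous eigenvector of all `T_ℓ` (`ℓ ∤ N`) and `U_q` (`q ∣ N`) in
`S₂(Γ₀(N))` is a nonzero multiple of a normalised eigenform whose prime coefficients are the
eigenvalues. -/
theorem exists_normalizedEigenform_of_eigenvector [NeZero N]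
    (g : CuspForm (Gamma0 N) 2) (hg : g ≠ 0) (lam : ℕ → ℂ)
    (hT : ∀ (ℓ : ℕ) (hℓ : ℓ.Prime) (hℓN : ¬ ℓ ∣ N), CuspForm.heckeTLin 2 hℓ hℓN g = lam ℓ • g)
    (hU : ∀ (q : ℕ) (_ : q.Prime) (hqN : q ∣ N), CuspForm.heckeULin 2 hqN g = lam q • g) :
    ∃ f : CuspForm (Gamma0 N) 2, f.IsNormalizedEigenform ∧
      (∀ ℓ : ℕ, ℓ.Prime → qCoeff ⇑f ℓ = lam ℓ) ∧ ∃ c : ℂ, c ≠ 0 ∧ f = c • g := by
  have hseq := isEigenSeq_of_eigenvector g lam hT hU
  have h1 : qCoeff ⇑g 1 ≠ 0 := by
    intro h1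
    apply hg
    apply eq_zero_of_forall_qCoeff_eq_zero
    intro n
    rcases Nat.eq_zero_or_pos n with rfl | hn
    · exact qCoeff_zero_cuspForm g
    · exact hseq.eq_zero_of_one h1 n hn
  set c : ℂ := (qCoeff ⇑g 1)⁻¹ with hc
  have hc0 : c ≠ 0 := inv_ne_zero h1
  have hcoef : ∀ n, qCoeff ⇑(c • g) n = c * qCoeff ⇑g n := fun n => qCoeff_smul_cuspForm c g n
  have heig : FormalHecke.IsEigensystem (eulerChar N) (fun n => qCoeff ⇑(c • g) n) := by
    refine ⟨?_, ?_⟩
    · show qCoeff ⇑(c • g) 1 = 1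
      rw [hcoef, hc, inv_mul_cancel₀ h1]
    · intro ℓ hℓ n
      show qCoeff ⇑(c • g) (ℓ * n) + eulerChar N ℓ * (if ℓ ∣ n then qCoeff ⇑(c • g) (n / ℓ) else 0)
        = qCoeff ⇑(c • g) ℓ * qCoeff ⇑(c • g) n
      have hrel := hseq ℓ hℓ n
      have hl := hseq.lam_eq hℓ
      simp only [hcoef]
      simp only at hrel hl
      have e1 : c * qCoeff ⇑g ℓ = lam ℓ := by
        rw [hl, hc]; field_simp
      rw [e1, ← mul_assoc, mul_comm (lam ℓ) c, mul_assoc, ← hrel]
      split_ifs <;> ring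
  refine ⟨c • g, isNormalizedEigenform_of_isEigensystem _ heig, ?_, c, hc0, rfl⟩
  intro ℓ hℓ
  rw [hcoef, hseq.lam_eq hℓ, hc]
  field_simp

end Forms

end Fermat.Agent.Lib.H3
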